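import Mathlib
import Fermat.Agent.MUL.Lib.BadRed.Nodal.Gluing.Ordinary
import Fermat.Agent.MUL.Lib.BadRed.Nodal.Gluing.Inject
import Fermat.Agent.MUL.Lib.BadRed.Nodal.P.Defs
import Fermat.Agent.MUL.R38.D.GenIndepFinal

section MergeWrap_Lib_BadRed_Nodal_P_OrdRep -- from Lib/BadRed/Nodal/P/OrdRep.lean

set_option autoImplicit false

/-!
# S33-new, seat P-R0: ordinary kernel-of-reduction representatives at the exponent `p`

Let `N` be a nodal setup with residue field `k` and `n ≠ 0` an exponent such that `k` has no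
nontrivial `n`-th root of unity (e.g. `n = p ^ j`, `p = char k`).  Then every gluing datum `d` of
a `W₀`-divisor `D` (`n D = div g`, `g / cᵢ` reducing to an `n`-th power at `vᵢ`) has a function
`φ` such that `E = div φ + D` is ORDINARY with TRIVIAL reduction (`N.RedTrivial E`) and the
generator `d.f φ = φ ^ n * g / c₁` of `n E` reduces to `1` at BOTH valuations.

This is the gluing step (M1) of cluster T (`GData.exists_lift_generic`, which only needs `n ≠ 0`)
with all gluing invariants equal to `1`: the constant pair `(1, 1)` is a generic pair of the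
twisted nodal Riemann-Roch space.  No hypothesis "`n` is a unit of `A`" is used.
-/

noncomputable section

open AlgebraicCurve Fermat.Agent.RR Fermat.Agent.Deuring

namespace Fermat.Agent.BadRed.NodalP

open Fermat.Agent.BadRed.Gluing

variable {K F k Fk₁ Fk₂ ι : Type*} [Field K] [Field F] [Algebra K F]
  [Field k] [Field Fk₁] [Algebra k Fk₁] [Field Fk₂] [Algebra k Fk₂]
  {N : NodalSetup K F k Fk₁ Fk₂ ι} {n : ℕ}

/-- in characteristic `p` there is no nontrivial root of unity of `p`-power order. -/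
theorem eq_one_of_pow_char_pow_eq_one {k : Type*} [Field k] (p : ℕ) [Fact p.Prime] [CharP k p]
    (j : ℕ) {z : k} (hz : z ^ p ^ j = 1) : z = 1 := by
  have h : (z - 1) ^ p ^ j = 0 := by
    rw [sub_pow_char_pow, hz, one_pow, sub_self]
  exact sub_eq_zero.mp (pow_eq_zero_iff (pow_ne_zero j (Fact.out : p.Prime).ne_zero) |>.mp h)

/-- the divisor of the constant function `1` is `0`. -/
theorem divOf_one' {K F : Type*} [Field K] [Field F] [Algebra K F] (h : IsRRField K F) :
    divOf h (1 : F) = 0 := by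
  ext P
  rw [divOf_apply, Finsupp.zero_apply]
  exact P.ord_one

/-- **(R0), general form.**  If `k` has no nontrivial `n`-th root of unity, every gluing datum has
an ordinary representative in the kernel of reduction whose generator reduces to `1` at both
valuations. -/
theorem exists_redTrivial_rep [Fintype ι] [Infinite k] (hn : n ≠ 0)
    (hroot : ∀ z : k, z ^ n = 1 → z = 1) (hrel : N.GenusRel) (d : GData N n) :
    ∃ φ : F, φ ≠ 0 ∧ φ ∈ N.S₁.Ov ∧ d.c₀⁻¹ • φ ∈ N.S₂.Ov ∧
      N.RedTrivial (divOf N.S₁.hF φ + d.D) ∧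
      d.A φ = 1 ∧ d.B φ = 1 ∧
      N.S₁.red (d.f φ) = 1 ∧ N.S₂.red (d.f φ) = 1 := by
  obtain ⟨R, hR⟩ := exists_isBig N
  obtain ⟨ζ, hζ⟩ := d.exists_isGlueAt hn hrel hR
  have hζ1 : ∀ i, ζ i = 1 := fun i => hroot _ (hζ.1 i)
  have h1 : (1 : Fk₁) ∈ riemannRochSpace (redDiv₁ N R) :=
    riemannRochSpace_mono (redDiv₁_nonneg N hR.nonneg) (by
      have := algebraMap_mem_riemannRochSpace_zero (K := k) (F := Fk₁) 1
      rwa [map_one] at this)
  have h2 : (1 : Fk₂) ∈ riemannRochSpace (redDiv₂ N R) :=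
    riemannRochSpace_mono (redDiv₂_nonneg N hR.nonneg) (by
      have := algebraMap_mem_riemannRochSpace_zero (K := k) (F := Fk₂) 1
      rwa [map_one] at this)
  have hab : ((1 : Fk₁), (1 : Fk₂)) ∈ twistRR N ζ (redDiv₁ N R) (redDiv₂ N R) := by
    refine ⟨h1, h2, fun i => ⟨1, ?_, valAt_one _⟩⟩
    rw [hζ1 i, mul_one]
    exact valAt_one _
  have hgen : IsGenericPair N ζ (1 : Fk₁) (1 : Fk₂) := by
    refine ⟨one_ne_zero, one_ne_zero, fun i => ⟨?_, valAt_one _⟩⟩
    rw [hζ1 i]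
    exact valAt_one _
  obtain ⟨φ, hφ0, hφ, hA, hB, -, hord, hr1, hr2⟩ := d.exists_lift_generic hn hR hζ hab hgen
  have hE : divOf N.S₁.hF φ + d.D = (divOf N.S₁.hF φ + d.D + R) - R := by abel
  refine ⟨φ, hφ0, hφ.2.1, hφ.2.2, ?_, hA, hB, ?_, ?_⟩
  · rw [hE]
    apply inj_redTrivial_of_redDiv N (isOrdDiv_sub N hord hR.ord)
    · rw [inj_redDiv₁_sub, hr1, divOf_one', zero_add, sub_self]
    · rw [inj_redDiv₂_sub, hr2, divOf_one', zero_add, sub_self]
  · rw [d.red₁_f hφ.2.1, hA, one_pow]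
  · rw [d.red₂_f hφ.2.2, hB, one_pow]

/-- **(R0)** at a `p`-power exponent, `p` the residue characteristic: a `W₀`-divisor `D` for the
exponent `n = p ^ j` is linearly equivalent to an ORDINARY divisor `E` with TRIVIAL reduction, with
a generator `u` of `n E` which reduces to `1` at both valuations.  The function `φ` with
`E = div φ + D` is integral at `v₁`, and `u = φ ^ n * g / c₁`. -/
theorem exists_redTrivial_rep_char [Fintype ι] [Infinite k] (p : ℕ) [Fact p.Prime] [CharP k p]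
    (j : ℕ) (hrel : N.GenusRel) (d : GData N (p ^ j)) :
    ∃ (φ u : F), φ ≠ 0 ∧ u ≠ 0 ∧ u = φ ^ p ^ j * (d.g / algebraMap K F d.c₁) ∧
      N.RedTrivial (divOf N.S₁.hF φ + d.D) ∧
      Divisor.degree (divOf N.S₁.hF φ + d.D) = 0 ∧
      (∀ P : Place K F, P.ord u = (p ^ j : ℕ) * (divOf N.S₁.hF φ + d.D) P) ∧
      N.S₁.red u = 1 ∧ N.S₂.red u = 1 := by
  have hn : p ^ j ≠ 0 := pow_ne_zero j (Fact.out : p.Prime).ne_zero
  obtain ⟨φ, hφ0, -, -, hred, -, -, h1, h2⟩ :=
    exists_redTrivial_rep hn (fun z hz => eq_one_of_pow_char_pow_eq_one p j hz) hrel d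
  refine ⟨φ, d.f φ, hφ0, d.f_ne_zero hφ0, rfl, hred, ?_, fun P => ?_, h1, h2⟩
  · rw [map_add, degree_divOf, d.hdeg, add_zero]
  · rw [d.ord_f hφ0, Finsupp.add_apply, divOf_apply]

/-- the gluing datum of the representative `E = div φ + D` of **(R0)**: generator `d.f φ`,
constants `1`, roots `1`. -/
def ordRepData (d : GData N n) (φ : F) (hφ0 : φ ≠ 0)
    (h₁ : N.S₁.red (d.f φ) = 1) (h₂ : N.S₂.red (d.f φ) = 1) : GData N n where
  D := divOf N.S₁.hF φ + d.D
  g := d.f φ
  c₁ := 1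
  c₂ := 1
  c₀ := 1
  h₁ := 1
  h₂ := 1
  hdeg := by rw [map_add, degree_divOf, d.hdeg, add_zero]
  hg := d.f_ne_zero hφ0
  hdiv := fun P => by rw [d.ord_f hφ0, Finsupp.add_apply, divOf_apply]
  hc₁ := one_ne_zero
  hc₂ := one_ne_zero
  hc₀0 := one_ne_zero
  hh₁ := one_ne_zero
  hh₂ := one_ne_zero
  hred₁ := by rw [map_one, div_one, h₁, one_pow]
  hred₂ := by rw [map_one, div_one, h₂, one_pow]
  hc₀ := by rw [one_pow, div_one]

end Fermat.Agent.BadRed.NodalP
end
end MergeWrap_Lib_BadRed_Nodal_P_OrdRep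

section MergeWrap_Lib_BadRed_Nodal_P_OrdRepMain -- from Lib/BadRed/Nodal/P/OrdRepMain.lean

set_option autoImplicit false

/-!
# S33-new, seat P-R0: `OrdRepStatement`

`ordRepStatement`: for a nodal setup with `GenusRel`, residue field `k` infinite of characteristic
`p`, and `K` closed under `p`-th roots, `PTor.OrdRepStatement N p` holds.
-/

noncomputable section

open AlgebraicCurve Fermat.Agent.RR Fermat.Agent.Deuring

namespace Fermat.Agent.BadRed.NodalP

open Fermat.Agent.BadRed.Gluing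

variable {K F k Fk₁ Fk₂ ι : Type*} [Field K] [Field F] [Algebra K F]
  [Field k] [Field Fk₁] [Algebra k Fk₁] [Field Fk₂] [Algebra k Fk₂]
  {N : NodalSetup K F k Fk₁ Fk₂ ι}

/-- the divisor `(1 / n) div g`. -/
def divOfDiv (h : IsRRField K F) (n : ℕ) (g : F) : Divisor K F :=
  Finsupp.mapRange (fun z : ℤ => z / (n : ℤ)) (by simp) (divOf h g)

theorem divOfDiv_apply (h : IsRRField K F) (n : ℕ) (g : F) (P : Place K F) :
    divOfDiv h n g P = P.ord g / (n : ℤ) := by
  unfold divOfDiv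
  rw [Finsupp.mapRange_apply, divOf_apply]

theorem mul_divOfDiv_apply (h : IsRRField K F) {n : ℕ} {g : F}
    (hdiv : ∀ P : Place K F, (n : ℤ) ∣ P.ord g) (P : Place K F) :
    (n : ℤ) * divOfDiv h n g P = P.ord g := by
  rw [divOfDiv_apply]
  exact Int.mul_ediv_cancel' (hdiv P)

theorem degree_divOfDiv (h : IsRRField K F) {n : ℕ} (hn : n ≠ 0) {g : F}
    (hdiv : ∀ P : Place K F, (n : ℤ) ∣ P.ord g) :
    Divisor.degree (divOfDiv h n g) = 0 := by
  have h1 : n • divOfDiv h n g = divOf h g := by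
    ext P
    rw [Finsupp.smul_apply, divOf_apply, nsmul_eq_mul]
    exact mul_divOfDiv_apply h hdiv P
  have h2 : n • Divisor.degree (divOfDiv h n g) = 0 := by
    rw [← map_nsmul, h1, degree_divOf]
  rw [nsmul_eq_mul] at h2
  rcases mul_eq_zero.mp h2 with h3 | h3
  · exact absurd (by exact_mod_cast h3) hn
  · exact h3

/-- **(R0)** in the form of `PTor.OrdRepStatement`. -/
theorem ordRepStatement [Fintype ι] [Infinite k] (p : ℕ) [Fact p.Prime] [CharP k p]
    (hK : ∀ x : K, ∃ y : K, y ^ p = x) (hrel : N.GenusRel) :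
    PTor.OrdRepStatement N p := by
  intro g hg hdiv ⟨c₁, hc₁, h₁, hh₁, hr₁⟩ ⟨c₂, hc₂, h₂, hh₂, hr₂⟩
  have hp : p ≠ 0 := (Fact.out : p.Prime).ne_zero
  obtain ⟨c₀, hc₀⟩ := hK (c₁ / c₂)
  have hc₀0 : c₀ ≠ 0 := by
    rintro rfl
    rw [zero_pow hp] at hc₀
    exact div_ne_zero hc₁ hc₂ hc₀.symm
  let d : GData N p :=
    { D := divOfDiv N.S₁.hF p g
      g := g
      c₁ := c₁
      c₂ := c₂
      c₀ := c₀
      h₁ := h₁
      h₂ := h₂
      hdeg := degree_divOfDiv N.S₁.hF hp hdiv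
      hg := hg
      hdiv := fun P => (mul_divOfDiv_apply N.S₁.hF hdiv P).symm
      hc₁ := hc₁
      hc₂ := hc₂
      hc₀0 := hc₀0
      hh₁ := hh₁
      hh₂ := hh₂
      hred₁ := hr₁
      hred₂ := hr₂
      hc₀ := hc₀ }
  obtain ⟨φ, hφ0, -, -, hred, -, -, e1, e2⟩ :=
    exists_redTrivial_rep hp (fun z hz => eq_one_of_pow_char_pow_eq_one p 1 (by rwa [pow_one]))
      hrel d
  have hf : d.f φ = algebraMap K F c₁⁻¹ * φ ^ p * g := by
    change φ ^ p * (g / algebraMap K F c₁) = _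
    rw [map_inv₀]
    ring
  refine ⟨φ, c₁⁻¹, divOf N.S₁.hF φ + d.D, hφ0, inv_ne_zero hc₁, ?_, hred, fun v => ?_, ?_, ?_⟩
  · rw [map_add, degree_divOf, d.hdeg, add_zero]
  · rw [← hf, d.ord_f hφ0, Finsupp.add_apply, divOf_apply]
  · rw [← hf]; exact e1
  · rw [← hf]; exact e2

/-- **(R0)** for algebraically closed `K`. -/
theorem ordRepStatement_of_isAlgClosed [IsAlgClosed K] [Fintype ι] [Infinite k] (p : ℕ)
    [Fact p.Prime] [CharP k p] (hrel : N.GenusRel) : PTor.OrdRepStatement N p :=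
  ordRepStatement p
    (fun x => IsAlgClosed.exists_pow_nat_eq x (Fact.out : p.Prime).pos) hrel

end Fermat.Agent.BadRed.NodalP
end
end MergeWrap_Lib_BadRed_Nodal_P_OrdRepMain
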